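import Fermat.Agent.S37.LF.RegJ.HFin
import Fermat.Agent.S37.LF.Transfer

/-!
# S37, block LF, node RegJ: abstract tools

Membership in the integral closure `S18.chart A₀ y` of `A₀[y]`, and `regAt_transfer` with the
finiteness hypothesis discharged.
-/

set_option autoImplicit false

noncomputable section

namespace Fermat.Agent.S37.RegJ

open Polynomial IsLocalRing

variable {K₀ F : Type*} [Field K₀] [Field F] [Algebra K₀ F]

theorem const_mem_chart (A₀ : Subring K₀) (y : F) {a : K₀} (ha : a ∈ A₀) :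
    algebraMap K₀ F a ∈ S18.chart A₀ y := by
  have h := (chartEval A₀ y (C ⟨a, ha⟩)).2
  rwa [coe_chartEval_C] at h

theorem self_mem_chart (A₀ : Subring K₀) (y : F) : y ∈ S18.chart A₀ y := by
  have h := (chartEval A₀ y Polynomial.X).2
  rwa [coe_chartEval_X] at h

theorem mem_chart_of_cubic (A₀ : Subring K₀) (y : F) {z a b c : F} (ha : a ∈ S18.chart A₀ y)
    (hb : b ∈ S18.chart A₀ y) (hc : c ∈ S18.chart A₀ y) (h : z ^ 3 = a * z ^ 2 + b * z + c) :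
    z ∈ S18.chart A₀ y := by
  apply S18.mem_chart_of_isIntegral_chart
  set p : (S18.chart A₀ y)[X] := C ⟨a, ha⟩ * Polynomial.X ^ 2 + C ⟨b, hb⟩ * Polynomial.X + C ⟨c, hc⟩
    with hp
  have hdeg : p.degree < ((3 : ℕ) : WithBot ℕ) := by
    have h2 : p.degree ≤ 2 := by
      rw [hp]
      compute_degree
    exact lt_of_le_of_lt h2 (by norm_num)
  refine ⟨Polynomial.X ^ 3 - p, monic_X_pow_sub hdeg, ?_⟩
  rw [hp]
  simp only [eval₂_sub, eval₂_add, eval₂_mul, eval₂_pow, eval₂_X, eval₂_C]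
  show z ^ 3 - (a * z ^ 2 + b * z + c) = 0
  rw [← h]
  ring

theorem mem_chart_of_quartic (A₀ : Subring K₀) (y : F) {z a b c d : F}
    (ha : a ∈ S18.chart A₀ y) (hb : b ∈ S18.chart A₀ y) (hc : c ∈ S18.chart A₀ y)
    (hd : d ∈ S18.chart A₀ y) (h : z ^ 4 = a * z ^ 3 + b * z ^ 2 + c * z + d) :
    z ∈ S18.chart A₀ y := by
  apply S18.mem_chart_of_isIntegral_chart
  set p : (S18.chart A₀ y)[X] := C ⟨a, ha⟩ * Polynomial.X ^ 3 + C ⟨b, hb⟩ * Polynomial.X ^ 2 +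
    C ⟨c, hc⟩ * Polynomial.X + C ⟨d, hd⟩ with hp
  have hdeg : p.degree < ((4 : ℕ) : WithBot ℕ) := by
    have h2 : p.degree ≤ 3 := by
      rw [hp]
      compute_degree
    exact lt_of_le_of_lt h2 (by norm_num)
  refine ⟨Polynomial.X ^ 4 - p, monic_X_pow_sub hdeg, ?_⟩
  rw [hp]
  simp only [eval₂_sub, eval₂_add, eval₂_mul, eval₂_pow, eval₂_X, eval₂_C]
  show z ^ 4 - (a * z ^ 3 + b * z ^ 2 + c * z + d) = 0
  rw [← h]
  ring

/-- `regAt_transfer` with `hfin` discharged by `chart_hfin`. -/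
theorem regAt_of_chart (A₀ : ValuationSubring K₀) (ϖ₀ : K₀) (h₀ : S18.IsUnif A₀ ϖ₀) (u y : F)
    (h₁ : RegChart A₀ ϖ₀ u 0)
    (ϖB : S18.chart A₀.toSubring y) (hϖB : (ϖB : F) = algebraMap K₀ F ϖ₀)
    (𝔫 : Ideal (S18.chart A₀.toSubring y)) (h𝔫 : 𝔫.IsMaximal) (hϖ : ϖB ∈ 𝔫)
    (a s : S18.chart A₀.toSubring y) (hs : s ∉ 𝔫) (hu : u * (s : F) = a)
    (a' s' : F) (ha' : a' ∈ S18.chart A₀.toSubring u) (hs' : s' ∈ S18.chart A₀.toSubring u)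
    (hy : y * s' = a')
    (b c : S18.chart A₀.toSubring y) (hb : b ∉ 𝔫) (hc : c ∉ 𝔫) (hsb : s' * (b : F) = c) :
    S18.Abs.RegAt ϖB 𝔫 :=
  regAt_transfer A₀ ϖ₀ h₀.mem u y h₁ ϖB hϖB 𝔫 h𝔫 hϖ (chart_hfin A₀ ϖ₀ h₀ y ϖB hϖB 𝔫 h𝔫 hϖ)
    a s hs hu ⟨a', ha'⟩ ⟨s', hs'⟩ hy b c hb hc hsb

/-- a unit of the chart is in no maximal ideal -/
theorem notMem_of_mul_eq_one {C : Type*} [CommRing C] (𝔫 : Ideal C) (h𝔫 : 𝔫.IsMaximal) {b b' : C}
    (h : b * b' = 1) : b ∉ 𝔫 := fun hb =>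
  (Ideal.ne_top_iff_one 𝔫).1 h𝔫.ne_top (h ▸ 𝔫.mul_mem_right b' hb)

theorem one_notMem {C : Type*} [CommRing C] (𝔫 : Ideal C) (h𝔫 : 𝔫.IsMaximal) : (1 : C) ∉ 𝔫 :=
  (Ideal.ne_top_iff_one 𝔫).1 h𝔫.ne_top

end Fermat.Agent.S37.RegJ

end
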