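import Fermat.Agent.S37.LF.RegJ.Abs

/-!
# S37, block LF, node RegJ: transfer of regularity from the `h₂`-charts to the `j`-charts

Abstract form: `j h = (1 + 256 h)^3`, `2` invertible in `A₀`.
-/

set_option autoImplicit false
set_option linter.unusedSectionVars false
set_option linter.unusedVariables false

noncomputable section

namespace Fermat.Agent.S37.RegJ

open Polynomial IsLocalRing

section Identities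

variable {F : Type*} [Field F] (j h : F) (hh : h ≠ 0) (hF : (256 : F) ≠ 0)
  (hjh : j * h = (1 + 256 * h) ^ 3)
include hh hF hjh

theorem regJ_h2_a : h ^ 3 = (-3 * (256 : F)⁻¹) * h ^ 2 + ((j - 768) * (256 : F)⁻¹ ^ 3) * h +
    (-(256 : F)⁻¹ ^ 3) := by
  field_simp
  linear_combination (-1) * hjh

theorem regJ_h2_b : h⁻¹ ^ 3 = (j - 768) * h⁻¹ ^ 2 + (-(3 * 256 ^ 2)) * h⁻¹ + (-256 ^ 3) := by
  field_simp
  linear_combination (-1) * hjh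

theorem regJ_h2_d (hj : j ≠ 0) : 1 + 256 * h ≠ 0 := by
  intro h0
  rw [h0] at hjh
  apply mul_ne_zero hj hh
  rw [hjh]; ring

theorem regJ_h2_c (hj : j ≠ 0) (hd : 1 + 256 * h ≠ 0) : (1 + 256 * h)⁻¹ ^ 3 =
    1 * (1 + 256 * h)⁻¹ ^ 2 + 0 * (1 + 256 * h)⁻¹ + (-(256 * j⁻¹)) := by
  have hd' : 1 + h * 256 ≠ 0 := by rwa [mul_comm] at hd
  field_simp
  linear_combination (-256) * hjh

theorem regJ_h2_e (hd : 1 + 256 * h ≠ 0) :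
    h * (1 + 256 * h)⁻¹ = (1 - (1 + 256 * h)⁻¹) * (256 : F)⁻¹ := by
  have hd' : 1 + h * 256 ≠ 0 := by rwa [mul_comm] at hd
  field_simp
  ring

theorem regJ_h2_f (hj : j ≠ 0) : j⁻¹ * (1 + 256 * h) ^ 3 = h := by
  field_simp
  linear_combination (-1) * hjh

theorem regJ_h2_g (hd : 1 + 256 * h ≠ 0) :
    h⁻¹ * (1 - (1 + 256 * h)⁻¹) = 256 * (1 + 256 * h)⁻¹ := by
  have hd' : 1 + h * 256 ≠ 0 := by rwa [mul_comm] at hd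
  field_simp
  ring

theorem regJ_h2_h (hj : j ≠ 0) : j⁻¹ * (h⁻¹ + 256) ^ 3 = h⁻¹ ^ 2 := by
  field_simp
  linear_combination (-1) * hjh

theorem regJ_h2_i (hd : 1 + 256 * h ≠ 0) :
    (h⁻¹ + 256) ^ 3 * (1 - (1 + 256 * h)⁻¹) ^ 3 = 256 ^ 3 := by
  have hd' : 1 + h * 256 ≠ 0 := by rwa [mul_comm] at hd
  field_simp
  ring

end Identities

variable {K₀ F : Type*} [Field K₀] [CharZero K₀] [Field F] [Algebra K₀ F]

/-- `n⁻¹` belongs to every chart when `n⁻¹ ∈ A₀`. -/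
theorem ofNat_inv_mem_chart (A₀ : Subring K₀) (y : F) (n : ℕ) [n.AtLeastTwo]
    (hn : (OfNat.ofNat n : K₀)⁻¹ ∈ A₀) : (OfNat.ofNat n : F)⁻¹ ∈ S18.chart A₀ y := by
  have h := const_mem_chart A₀ y hn
  rwa [map_inv₀, map_ofNat] at h

theorem ofNat_ne_zero_of_algebra (K₀ F : Type*) [Field K₀] [CharZero K₀] [Field F] [Algebra K₀ F]
    (n : ℕ) [n.AtLeastTwo] : (OfNat.ofNat n : F) ≠ 0 := by
  rw [← map_ofNat (algebraMap K₀ F) n]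
  exact (_root_.map_ne_zero _).2 (OfNat.ofNat_ne_zero n)

/-- The finite chart. -/
theorem regChart_fin_of_h2 (A₀ : ValuationSubring K₀) (ϖ₀ : K₀) (h₀ : S18.IsUnif A₀ ϖ₀)
    (h256 : (256 : K₀)⁻¹ ∈ A₀) (j h : F) (hh : h ≠ 0) (hjh : j * h = (1 + 256 * h) ^ 3)
    (r₁ : RegChart A₀ ϖ₀ h 0) : RegChart A₀ ϖ₀ j 0 := by
  have hF : (256 : F) ≠ 0 := ofNat_ne_zero_of_algebra K₀ F 256
  set C := S18.chart A₀.toSubring j with hC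
  have hjC : j ∈ C := self_mem_chart _ _
  have hκC : (256 : F)⁻¹ ∈ C := ofNat_inv_mem_chart _ _ 256 h256
  have hhC : h ∈ C := mem_chart_of_cubic _ _
    (C.mul_mem (C.neg_mem (ofNat_mem C 3)) hκC)
    (C.mul_mem (C.sub_mem hjC (ofNat_mem C 768)) (C.pow_mem hκC 3))
    (C.neg_mem (C.pow_mem hκC 3)) (regJ_h2_a j h hh hF hjh)
  have hwC : h⁻¹ ∈ C := mem_chart_of_cubic _ _
    (C.sub_mem hjC (ofNat_mem C 768))
    (C.neg_mem (C.mul_mem (ofNat_mem C 3) (C.pow_mem (ofNat_mem C 256) 2)))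
    (C.neg_mem (C.pow_mem (ofNat_mem C 256) 3)) (regJ_h2_b j h hh hF hjh)
  intro ϖB hϖB 𝔫 h𝔫 hϖ _
  have hD : (1 + 256 * h) ^ 3 ∈ S18.chart A₀.toSubring h :=
    Subring.pow_mem _ (Subring.add_mem _ (Subring.one_mem _)
      (Subring.mul_mem _ (ofNat_mem _ 256) (self_mem_chart _ _))) 3
  refine regAt_of_chart A₀ ϖ₀ h₀ h j r₁ ϖB hϖB 𝔫 h𝔫 hϖ ⟨h, hhC⟩ 1 (one_notMem 𝔫 h𝔫) ?_
    ((1 + 256 * h) ^ 3) h hD (self_mem_chart _ _) hjh ⟨h⁻¹, hwC⟩ 1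
    (notMem_of_mul_eq_one 𝔫 h𝔫 (b' := ⟨h, hhC⟩) (Subtype.ext (inv_mul_cancel₀ hh)))
    (one_notMem 𝔫 h𝔫) ?_
  · show h * (1 : F) = h
    rw [mul_one]
  · show h * h⁻¹ = (1 : F)
    exact mul_inv_cancel₀ hh

/-- The chart at infinity. -/
theorem regChart_inf_of_h2 (A₀ : ValuationSubring K₀) (ϖ₀ : K₀) (h₀ : S18.IsUnif A₀ ϖ₀)
    (h256 : (256 : K₀)⁻¹ ∈ A₀) (j h : F) (hh : h ≠ 0) (hj : j ≠ 0)
    (hjh : j * h = (1 + 256 * h) ^ 3)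
    (r₁ : RegChart A₀ ϖ₀ h 0) (r₂ : RegChart A₀ ϖ₀ h⁻¹ 0) : RegChart A₀ ϖ₀ j⁻¹ j⁻¹ := by
  have hF : (256 : F) ≠ 0 := ofNat_ne_zero_of_algebra K₀ F 256
  have hd : 1 + 256 * h ≠ 0 := regJ_h2_d j h hh hF hjh hj
  set C := S18.chart A₀.toSubring j⁻¹ with hC
  have hyC : j⁻¹ ∈ C := self_mem_chart _ _
  have hκC : (256 : F)⁻¹ ∈ C := ofNat_inv_mem_chart _ _ 256 h256
  set δ : F := (1 + 256 * h)⁻¹ with hδ
  have hδ3 := regJ_h2_c j h hh hF hjh hj hd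
  rw [← hδ] at hδ3
  have hδC : δ ∈ C := mem_chart_of_cubic _ _ C.one_mem C.zero_mem
    (C.neg_mem (C.mul_mem (ofNat_mem C 256) hyC)) hδ3
  intro ϖB hϖB 𝔫 h𝔫 hϖ hw
  have hy𝔫 : (⟨j⁻¹, hyC⟩ : C) ∈ 𝔫 := hw _ rfl
  set δB : C := ⟨δ, hδC⟩ with hδB
  have hprod : δB ^ 2 * (δB - 1) ∈ 𝔫 := by
    have e : δB ^ 2 * (δB - 1) = (-⟨256, ofNat_mem C 256⟩) * (⟨j⁻¹, hyC⟩ : C) := by
      apply Subtype.ext
      show δ ^ 2 * (δ - 1) = (-256) * j⁻¹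
      linear_combination hδ3
    rw [e]
    exact 𝔫.mul_mem_left _ hy𝔫
  rcases h𝔫.isPrime.mem_or_mem hprod with h1 | h1
  · -- `δ ∈ 𝔫`
    have hδ𝔫 : δB ∈ 𝔫 := h𝔫.isPrime.mem_of_pow_mem 2 h1
    have hs : (1 - δB) ∉ 𝔫 := fun h2 => one_notMem 𝔫 h𝔫 (by
      have := 𝔫.add_mem h2 hδ𝔫
      rwa [sub_add_cancel] at this)
    have hA : h⁻¹ ^ 2 ∈ S18.chart A₀.toSubring h⁻¹ := Subring.pow_mem _ (self_mem_chart _ _) 2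
    have hS : (h⁻¹ + 256) ^ 3 ∈ S18.chart A₀.toSubring h⁻¹ :=
      Subring.pow_mem _ (Subring.add_mem _ (self_mem_chart _ _) (ofNat_mem _ 256)) 3
    refine regAt_of_chart A₀ ϖ₀ h₀ h⁻¹ j⁻¹ r₂ ϖB hϖB 𝔫 h𝔫 hϖ
      (⟨256, ofNat_mem C 256⟩ * δB) (1 - δB) hs ?_ (h⁻¹ ^ 2) ((h⁻¹ + 256) ^ 3) hA hS
      (regJ_h2_h j h hh hF hjh hj) ((1 - δB) ^ 3) (⟨256, ofNat_mem C 256⟩ ^ 3)
      (fun h2 => hs (h𝔫.isPrime.mem_of_pow_mem 3 h2))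
      (notMem_of_mul_eq_one 𝔫 h𝔫 (b' := ⟨(256 : F)⁻¹, hκC⟩ ^ 3) ?_) ?_
    · show h⁻¹ * (1 - δ) = 256 * δ
      exact regJ_h2_g j h hh hF hjh hd
    · apply Subtype.ext
      show (256 : F) ^ 3 * (256 : F)⁻¹ ^ 3 = 1
      rw [← mul_pow, mul_inv_cancel₀ hF, one_pow]
    · show (h⁻¹ + 256) ^ 3 * (1 - δ) ^ 3 = 256 ^ 3
      exact regJ_h2_i j h hh hF hjh hd
  · -- `δ - 1 ∈ 𝔫`
    have hs : δB ∉ 𝔫 := fun h2 => one_notMem 𝔫 h𝔫 (by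
      have := 𝔫.sub_mem h2 h1
      rwa [sub_sub_cancel] at this)
    have hS : (1 + 256 * h) ^ 3 ∈ S18.chart A₀.toSubring h :=
      Subring.pow_mem _ (Subring.add_mem _ (Subring.one_mem _)
        (Subring.mul_mem _ (ofNat_mem _ 256) (self_mem_chart _ _))) 3
    refine regAt_of_chart A₀ ϖ₀ h₀ h j⁻¹ r₁ ϖB hϖB 𝔫 h𝔫 hϖ
      ((1 - δB) * ⟨(256 : F)⁻¹, hκC⟩) δB hs ?_ h ((1 + 256 * h) ^ 3) (self_mem_chart _ _) hS
      (regJ_h2_f j h hh hF hjh hj) (δB ^ 3) 1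
      (fun h2 => hs (h𝔫.isPrime.mem_of_pow_mem 3 h2)) (one_notMem 𝔫 h𝔫) ?_
    · show h * δ = (1 - δ) * (256 : F)⁻¹
      exact regJ_h2_e j h hh hF hjh hd
    · show (1 + 256 * h) ^ 3 * δ ^ 3 = 1
      rw [← mul_pow, hδ, mul_inv_cancel₀ hd, one_pow]

end Fermat.Agent.S37.RegJ

end
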