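import Fermat.Agent.S37.LF.RegJ.AbsH2

/-!
# S37, block LF, node RegJ: transfer of regularity from the `h₃`-charts to the `j`-charts

Abstract form: `j h = (1 + 27 h) (1 + 243 h)^3`, `3` invertible in `A₀`.
-/

set_option autoImplicit false
set_option linter.unusedSectionVars false
set_option linter.unusedVariables false

noncomputable section

namespace Fermat.Agent.S37.RegJ

open Polynomial IsLocalRing

section Identities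

variable {F : Type*} [Field F] (j h : F) (hh : h ≠ 0) (h27 : (27 : F) ≠ 0) (h243 : (243 : F) ≠ 0)
  (hjh : j * h = (1 + 27 * h) * (1 + 243 * h) ^ 3)
include hh h27 h243 hjh

theorem regJ_h3_a : h ^ 4 = (-(1 * (27 : F)⁻¹ + 3 * (243 : F)⁻¹)) * h ^ 3 +
    (-(3 * (27 : F)⁻¹ * (243 : F)⁻¹ + 3 * (243 : F)⁻¹ ^ 2)) * h ^ 2 +
    ((j - 756) * ((27 : F)⁻¹ * (243 : F)⁻¹ ^ 3)) * h + (-((27 : F)⁻¹ * (243 : F)⁻¹ ^ 3)) := by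
  field_simp
  linear_combination (-1) * hjh

theorem regJ_h3_b : h⁻¹ ^ 4 = (j - 756) * h⁻¹ ^ 3 + (-(3 * 243 ^ 2 + 3 * 27 * 243)) * h⁻¹ ^ 2 +
    (-(243 ^ 3 + 3 * 27 * 243 ^ 2)) * h⁻¹ + (-(27 * 243 ^ 3)) := by
  field_simp
  linear_combination (-1) * hjh

theorem regJ_h3_d (hj : j ≠ 0) : 1 + 27 * h ≠ 0 := by
  intro h0
  rw [h0] at hjh
  apply mul_ne_zero hj hh
  rw [hjh]; ring

theorem regJ_h3_c (hj : j ≠ 0) (hd : 1 + 27 * h ≠ 0) :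
    (1 + 27 * h)⁻¹ ^ 4 = (1 + 27 * 512 * j⁻¹) * (1 + 27 * h)⁻¹ ^ 3 +
      (-(27 * 1728 * j⁻¹)) * (1 + 27 * h)⁻¹ ^ 2 + (27 * 1944 * j⁻¹) * (1 + 27 * h)⁻¹ +
      (-(27 * 729 * j⁻¹)) := by
  have hd' : 1 + h * 27 ≠ 0 := by rwa [mul_comm] at hd
  field_simp
  linear_combination (-27) * hjh

theorem regJ_h3_e (hd : 1 + 27 * h ≠ 0) :
    h * (1 + 27 * h)⁻¹ = (1 - (1 + 27 * h)⁻¹) * (27 : F)⁻¹ := by
  have hd' : 1 + h * 27 ≠ 0 := by rwa [mul_comm] at hd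
  field_simp
  ring

theorem regJ_h3_f (hj : j ≠ 0) : j⁻¹ * ((1 + 27 * h) * (1 + 243 * h) ^ 3) = h := by
  field_simp
  linear_combination (-1) * hjh

theorem regJ_h3_f2 (hd : 1 + 27 * h ≠ 0) :
    ((1 + 27 * h) * (1 + 243 * h) ^ 3) * (1 + 27 * h)⁻¹ ^ 4 = (9 - 8 * (1 + 27 * h)⁻¹) ^ 3 := by
  have hd' : 1 + h * 27 ≠ 0 := by rwa [mul_comm] at hd
  field_simp
  ring

theorem regJ_h3_g (hd : 1 + 27 * h ≠ 0) :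
    h⁻¹ * (1 - (1 + 27 * h)⁻¹) = 27 * (1 + 27 * h)⁻¹ := by
  have hd' : 1 + h * 27 ≠ 0 := by rwa [mul_comm] at hd
  field_simp
  ring

theorem regJ_h3_h (hj : j ≠ 0) : j⁻¹ * ((h⁻¹ + 27) * (h⁻¹ + 243) ^ 3) = h⁻¹ ^ 3 := by
  field_simp
  linear_combination (-1) * hjh

theorem regJ_h3_i (hd : 1 + 27 * h ≠ 0) :
    ((h⁻¹ + 27) * (h⁻¹ + 243) ^ 3) * (1 - (1 + 27 * h)⁻¹) ^ 4 =
      27 ^ 4 * (9 - 8 * (1 + 27 * h)⁻¹) ^ 3 := by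
  have hd' : 1 + h * 27 ≠ 0 := by rwa [mul_comm] at hd
  field_simp
  ring

end Identities

variable {K₀ F : Type*} [Field K₀] [CharZero K₀] [Field F] [Algebra K₀ F]

/-- The finite chart. -/
theorem regChart_fin_of_h3 (A₀ : ValuationSubring K₀) (ϖ₀ : K₀) (h₀ : S18.IsUnif A₀ ϖ₀)
    (i27 : (27 : K₀)⁻¹ ∈ A₀) (i243 : (243 : K₀)⁻¹ ∈ A₀) (j h : F) (hh : h ≠ 0)
    (hjh : j * h = (1 + 27 * h) * (1 + 243 * h) ^ 3)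
    (r₁ : RegChart A₀ ϖ₀ h 0) : RegChart A₀ ϖ₀ j 0 := by
  have h27 : (27 : F) ≠ 0 := ofNat_ne_zero_of_algebra K₀ F 27
  have h243 : (243 : F) ≠ 0 := ofNat_ne_zero_of_algebra K₀ F 243
  set C := S18.chart A₀.toSubring j with hC
  have hjC : j ∈ C := self_mem_chart _ _
  have hκ : (27 : F)⁻¹ ∈ C := ofNat_inv_mem_chart _ _ 27 i27
  have hκ' : (243 : F)⁻¹ ∈ C := ofNat_inv_mem_chart _ _ 243 i243
  have hhC : h ∈ C := mem_chart_of_quartic _ _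
    (C.neg_mem (C.add_mem (C.mul_mem C.one_mem hκ) (C.mul_mem (ofNat_mem C 3) hκ')))
    (C.neg_mem (C.add_mem (C.mul_mem (C.mul_mem (ofNat_mem C 3) hκ) hκ')
      (C.mul_mem (ofNat_mem C 3) (C.pow_mem hκ' 2))))
    (C.mul_mem (C.sub_mem hjC (ofNat_mem C 756)) (C.mul_mem hκ (C.pow_mem hκ' 3)))
    (C.neg_mem (C.mul_mem hκ (C.pow_mem hκ' 3))) (regJ_h3_a j h hh h27 h243 hjh)
  have hwC : h⁻¹ ∈ C := mem_chart_of_quartic _ _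
    (C.sub_mem hjC (ofNat_mem C 756))
    (C.neg_mem (C.add_mem (C.mul_mem (ofNat_mem C 3) (C.pow_mem (ofNat_mem C 243) 2))
      (C.mul_mem (C.mul_mem (ofNat_mem C 3) (ofNat_mem C 27)) (ofNat_mem C 243))))
    (C.neg_mem (C.add_mem (C.pow_mem (ofNat_mem C 243) 3)
      (C.mul_mem (C.mul_mem (ofNat_mem C 3) (ofNat_mem C 27)) (C.pow_mem (ofNat_mem C 243) 2))))
    (C.neg_mem (C.mul_mem (ofNat_mem C 27) (C.pow_mem (ofNat_mem C 243) 3)))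
    (regJ_h3_b j h hh h27 h243 hjh)
  intro ϖB hϖB 𝔫 h𝔫 hϖ _
  have hD : (1 + 27 * h) * (1 + 243 * h) ^ 3 ∈ S18.chart A₀.toSubring h :=
    Subring.mul_mem _ (Subring.add_mem _ (Subring.one_mem _)
      (Subring.mul_mem _ (ofNat_mem _ 27) (self_mem_chart _ _)))
      (Subring.pow_mem _ (Subring.add_mem _ (Subring.one_mem _)
      (Subring.mul_mem _ (ofNat_mem _ 243) (self_mem_chart _ _))) 3)
  refine regAt_of_chart A₀ ϖ₀ h₀ h j r₁ ϖB hϖB 𝔫 h𝔫 hϖ ⟨h, hhC⟩ 1 (one_notMem 𝔫 h𝔫) ?_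
    ((1 + 27 * h) * (1 + 243 * h) ^ 3) h hD (self_mem_chart _ _) hjh ⟨h⁻¹, hwC⟩ 1
    (notMem_of_mul_eq_one 𝔫 h𝔫 (b' := ⟨h, hhC⟩) (Subtype.ext (inv_mul_cancel₀ hh)))
    (one_notMem 𝔫 h𝔫) ?_
  · show h * (1 : F) = h
    rw [mul_one]
  · show h * h⁻¹ = (1 : F)
    exact mul_inv_cancel₀ hh

/-- The chart at infinity. -/
theorem regChart_inf_of_h3 (A₀ : ValuationSubring K₀) (ϖ₀ : K₀) (h₀ : S18.IsUnif A₀ ϖ₀)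
    (i27 : (27 : K₀)⁻¹ ∈ A₀) (i9 : (9 : K₀)⁻¹ ∈ A₀) (j h : F) (hh : h ≠ 0) (hj : j ≠ 0)
    (hjh : j * h = (1 + 27 * h) * (1 + 243 * h) ^ 3)
    (r₁ : RegChart A₀ ϖ₀ h 0) (r₂ : RegChart A₀ ϖ₀ h⁻¹ 0) : RegChart A₀ ϖ₀ j⁻¹ j⁻¹ := by
  have h27 : (27 : F) ≠ 0 := ofNat_ne_zero_of_algebra K₀ F 27
  have h243 : (243 : F) ≠ 0 := ofNat_ne_zero_of_algebra K₀ F 243
  have h9 : (9 : F) ≠ 0 := ofNat_ne_zero_of_algebra K₀ F 9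
  have hd : 1 + 27 * h ≠ 0 := regJ_h3_d j h hh h27 h243 hjh hj
  set C := S18.chart A₀.toSubring j⁻¹ with hC
  have hyC : j⁻¹ ∈ C := self_mem_chart _ _
  have hκC : (27 : F)⁻¹ ∈ C := ofNat_inv_mem_chart _ _ 27 i27
  have hκ9 : (9 : F)⁻¹ ∈ C := ofNat_inv_mem_chart _ _ 9 i9
  set δ : F := (1 + 27 * h)⁻¹ with hδ
  have hδ4 := regJ_h3_c j h hh h27 h243 hjh hj hd
  rw [← hδ] at hδ4
  have hδC : δ ∈ C := mem_chart_of_quartic _ _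
    (C.add_mem C.one_mem (C.mul_mem (C.mul_mem (ofNat_mem C 27) (ofNat_mem C 512)) hyC))
    (C.neg_mem (C.mul_mem (C.mul_mem (ofNat_mem C 27) (ofNat_mem C 1728)) hyC))
    (C.mul_mem (C.mul_mem (ofNat_mem C 27) (ofNat_mem C 1944)) hyC)
    (C.neg_mem (C.mul_mem (C.mul_mem (ofNat_mem C 27) (ofNat_mem C 729)) hyC)) hδ4
  intro ϖB hϖB 𝔫 h𝔫 hϖ hw
  have hy𝔫 : (⟨j⁻¹, hyC⟩ : C) ∈ 𝔫 := hw _ rfl
  set δB : C := ⟨δ, hδC⟩ with hδB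
  set c8 : C := ⟨8, ofNat_mem C 8⟩ with hc8
  set c9 : C := ⟨9, ofNat_mem C 9⟩ with hc9
  set c27 : C := ⟨27, ofNat_mem C 27⟩ with hc27
  have hprod : δB ^ 3 * (δB - 1) ∈ 𝔫 := by
    have e : δB ^ 3 * (δB - 1) = (-(c27 * (c9 - c8 * δB) ^ 3)) * (⟨j⁻¹, hyC⟩ : C) := by
      apply Subtype.ext
      show δ ^ 3 * (δ - 1) = (-(27 * (9 - 8 * δ) ^ 3)) * j⁻¹
      linear_combination hδ4
    rw [e]
    exact 𝔫.mul_mem_left _ hy𝔫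
  rcases h𝔫.isPrime.mem_or_mem hprod with h1 | h1
  · -- `δ ∈ 𝔫`
    have hδ𝔫 : δB ∈ 𝔫 := h𝔫.isPrime.mem_of_pow_mem 3 h1
    have hs : (1 - δB) ∉ 𝔫 := fun h2 => one_notMem 𝔫 h𝔫 (by
      have := 𝔫.add_mem h2 hδ𝔫
      rwa [sub_add_cancel] at this)
    have h27𝔫 : c27 ∉ 𝔫 := notMem_of_mul_eq_one 𝔫 h𝔫 (b' := ⟨(27 : F)⁻¹, hκC⟩)
      (Subtype.ext (mul_inv_cancel₀ h27))
    have h9𝔫 : c9 ∉ 𝔫 := notMem_of_mul_eq_one 𝔫 h𝔫 (b' := ⟨(9 : F)⁻¹, hκ9⟩)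
      (Subtype.ext (mul_inv_cancel₀ h9))
    have h98 : (c9 - c8 * δB) ∉ 𝔫 := fun h2 => h9𝔫 (by
      have := 𝔫.add_mem h2 (𝔫.mul_mem_left c8 hδ𝔫)
      rwa [sub_add_cancel] at this)
    have hA : h⁻¹ ^ 3 ∈ S18.chart A₀.toSubring h⁻¹ := Subring.pow_mem _ (self_mem_chart _ _) 3
    have hS : (h⁻¹ + 27) * (h⁻¹ + 243) ^ 3 ∈ S18.chart A₀.toSubring h⁻¹ :=
      Subring.mul_mem _ (Subring.add_mem _ (self_mem_chart _ _) (ofNat_mem _ 27))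
        (Subring.pow_mem _ (Subring.add_mem _ (self_mem_chart _ _) (ofNat_mem _ 243)) 3)
    refine regAt_of_chart A₀ ϖ₀ h₀ h⁻¹ j⁻¹ r₂ ϖB hϖB 𝔫 h𝔫 hϖ
      (c27 * δB) (1 - δB) hs ?_ (h⁻¹ ^ 3) ((h⁻¹ + 27) * (h⁻¹ + 243) ^ 3) hA hS
      (regJ_h3_h j h hh h27 h243 hjh hj) ((1 - δB) ^ 4) (c27 ^ 4 * (c9 - c8 * δB) ^ 3)
      (fun h2 => hs (h𝔫.isPrime.mem_of_pow_mem 4 h2)) ?_ ?_
    · show h⁻¹ * (1 - δ) = 27 * δ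
      exact regJ_h3_g j h hh h27 h243 hjh hd
    · intro h2
      rcases h𝔫.isPrime.mem_or_mem h2 with h3 | h3
      · exact h27𝔫 (h𝔫.isPrime.mem_of_pow_mem 4 h3)
      · exact h98 (h𝔫.isPrime.mem_of_pow_mem 3 h3)
    · show ((h⁻¹ + 27) * (h⁻¹ + 243) ^ 3) * (1 - δ) ^ 4 = 27 ^ 4 * (9 - 8 * δ) ^ 3
      exact regJ_h3_i j h hh h27 h243 hjh hd
  · -- `δ - 1 ∈ 𝔫`
    have hs : δB ∉ 𝔫 := fun h2 => one_notMem 𝔫 h𝔫 (by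
      have := 𝔫.sub_mem h2 h1
      rwa [sub_sub_cancel] at this)
    have h98 : (c9 - c8 * δB) ∉ 𝔫 := fun h2 => one_notMem 𝔫 h𝔫 (by
      have h3 := 𝔫.add_mem h2 (𝔫.mul_mem_left c8 h1)
      have e : c9 - c8 * δB + c8 * (δB - 1) = 1 := by
        apply Subtype.ext
        show (9 : F) - 8 * δ + 8 * (δ - 1) = 1
        ring
      rwa [e] at h3)
    have hS : (1 + 27 * h) * (1 + 243 * h) ^ 3 ∈ S18.chart A₀.toSubring h :=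
      Subring.mul_mem _ (Subring.add_mem _ (Subring.one_mem _)
        (Subring.mul_mem _ (ofNat_mem _ 27) (self_mem_chart _ _)))
        (Subring.pow_mem _ (Subring.add_mem _ (Subring.one_mem _)
        (Subring.mul_mem _ (ofNat_mem _ 243) (self_mem_chart _ _))) 3)
    refine regAt_of_chart A₀ ϖ₀ h₀ h j⁻¹ r₁ ϖB hϖB 𝔫 h𝔫 hϖ
      ((1 - δB) * ⟨(27 : F)⁻¹, hκC⟩) δB hs ?_ h ((1 + 27 * h) * (1 + 243 * h) ^ 3)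
      (self_mem_chart _ _) hS (regJ_h3_f j h hh h27 h243 hjh hj) (δB ^ 4) ((c9 - c8 * δB) ^ 3)
      (fun h2 => hs (h𝔫.isPrime.mem_of_pow_mem 4 h2))
      (fun h2 => h98 (h𝔫.isPrime.mem_of_pow_mem 3 h2)) ?_
    · show h * δ = (1 - δ) * (27 : F)⁻¹
      exact regJ_h3_e j h hh h27 h243 hjh hd
    · show ((1 + 27 * h) * (1 + 243 * h) ^ 3) * δ ^ 4 = (9 - 8 * δ) ^ 3
      exact regJ_h3_f2 j h hh h27 h243 hjh hd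

end Fermat.Agent.S37.RegJ

end
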