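import Fermat.Agent.S37.LF.Defs
import Fermat.Agent.S18.Chart.Const
import Fermat.Agent.S18.Chart.Unif

/-!
# S37, block LF, node RegJ: residue fields of closed points of the special fibre of a chart

Every element of the integral closure `C` of `A₀[y]` satisfies, modulo a maximal ideal `𝔫`
containing the uniformiser, a monic equation with coefficients in `A₀`
(the hypothesis `hfin` of `regAt_transfer`).
-/

set_option autoImplicit false

noncomputable section

namespace Fermat.Agent.S37.RegJ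

open Polynomial IsLocalRing

/-- Zariski's lemma in one variable, relative form: a field `L` which is integral over the ring
generated by the image of `R` and one element `y`, where `R → L` kills a maximal ideal of `R`, is
integral over `R`. -/
theorem isIntegral_of_eval₂_isIntegral {R L : Type*} [CommRing R] [Field L] (𝔪 : Ideal R)
    [h𝔪 : 𝔪.IsMaximal] (φ : R →+* L) (hφ : ∀ a ∈ 𝔪, φ a = 0) (y : L)
    (hy : (eval₂RingHom φ y).IsIntegral) : φ.IsIntegral := by
  let _ : Field (R ⧸ 𝔪) := Ideal.Quotient.field 𝔪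
  set φ' : R ⧸ 𝔪 →+* L := Ideal.Quotient.lift 𝔪 φ hφ with hφ'
  have hcomp : φ'.comp (Ideal.Quotient.mk 𝔪) = φ := Ideal.Quotient.lift_comp_mk 𝔪 φ hφ
  set ψ' : (R ⧸ 𝔪)[X] →+* L := eval₂RingHom φ' y with hψ'
  have hψ : ψ'.comp (mapRingHom (Ideal.Quotient.mk 𝔪)) = eval₂RingHom φ y := by
    apply Polynomial.ringHom_ext
    · intro a
      simp [hψ', ← hcomp]
    · simp [hψ']
  have hint' : ψ'.IsIntegral := RingHom.IsIntegral.tower_top _ _ (hψ ▸ hy)
  -- `y` is a root of a nonzero polynomial over the residue field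
  have hmax : ((⊥ : Ideal L).comap ψ').IsMaximal :=
    Ideal.isMaximal_comap_of_isIntegral_of_isMaximal' ψ' hint' ⊥
  have hne : (⊥ : Ideal L).comap ψ' ≠ ⊥ :=
    Ring.ne_bot_of_isMaximal_of_not_isField hmax (Polynomial.not_isField _)
  obtain ⟨G, hG, hG0⟩ := Submodule.exists_mem_ne_zero_of_ne_bot hne
  have hGy : eval₂ φ' y G = 0 := by
    have : ψ' G ∈ (⊥ : Ideal L) := hG
    simpa [hψ'] using this
  -- `y` is integral over `R`
  have hyint : φ.IsIntegralElem y := by
    have hmon : (G * C G.leadingCoeff⁻¹).Monic := monic_mul_leadingCoeff_inv hG0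
    have hl : G * C G.leadingCoeff⁻¹ ∈ lifts (Ideal.Quotient.mk 𝔪) := by
      rw [lifts_iff_coeff_lifts]
      intro n
      exact Ideal.Quotient.mk_surjective _
    obtain ⟨P, hP, -, hPm⟩ := lifts_and_natDegree_eq_and_monic hl hmon
    refine ⟨P, hPm, ?_⟩
    rw [← hcomp, ← eval₂_map, hP, eval₂_mul, hGy, zero_mul]
  let _ : Algebra R L := φ.toAlgebra
  have hyint' : IsIntegral R y := hyint
  intro x
  show IsIntegral R x
  obtain ⟨Q, hQm, hQ⟩ := hy x
  set θ : R[X] →+* integralClosure R L :=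
    (aeval (⟨y, hyint'⟩ : integralClosure R L)).toRingHom with hθ
  have hθψ : (algebraMap (integralClosure R L) L).comp θ = eval₂RingHom φ y := by
    apply Polynomial.ringHom_ext
    · intro a
      simp only [hθ, RingHom.comp_apply, AlgHom.toRingHom_eq_coe, RingHom.coe_coe, aeval_C,
        coe_eval₂RingHom, eval₂_C]
      rfl
    · simp only [hθ, RingHom.comp_apply, AlgHom.toRingHom_eq_coe, RingHom.coe_coe, aeval_X,
        coe_eval₂RingHom, eval₂_X]
      rfl
  have hx : IsIntegral (integralClosure R L) x := by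
    refine ⟨Q.map θ, hQm.map θ, ?_⟩
    rw [eval₂_map, hθψ]
    exact hQ
  exact isIntegral_trans x hx

section Chart

variable {K₀ F : Type*} [Field K₀] [Field F] [Algebra K₀ F]

/-- `A₀[X] → chart A₀ y`, `X ↦ y`. -/
def chartEval (A₀ : Subring K₀) (y : F) : (A₀ : Type _)[X] →+* S18.chart A₀ y :=
  RingHom.codRestrict
    ((Polynomial.aeval y : K₀[X] →ₐ[K₀] F).toRingHom.comp (Polynomial.mapRingHom A₀.subtype))
    (S18.chart A₀ y) fun P => S18.polyRing_le_chart A₀ y ⟨P, rfl⟩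

theorem coe_chartEval (A₀ : Subring K₀) (y : F) (P : (A₀ : Type _)[X]) :
    (chartEval A₀ y P : F) = aeval y (P.map A₀.subtype) := rfl

theorem coe_chartEval_C (A₀ : Subring K₀) (y : F) (a : A₀) :
    (chartEval A₀ y (C a) : F) = algebraMap K₀ F a := by
  rw [coe_chartEval, Polynomial.map_C, aeval_C]
  rfl

theorem coe_chartEval_X (A₀ : Subring K₀) (y : F) : (chartEval A₀ y Polynomial.X : F) = y := by
  rw [coe_chartEval, Polynomial.map_X, aeval_X]

/-- the chart is integral over `A₀[X]` -/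
theorem chartEval_isIntegral (A₀ : Subring K₀) (y : F) : (chartEval A₀ y).IsIntegral := by
  intro z
  obtain ⟨q, hqm, hq⟩ := (S18.mem_chart_iff_isIntegral A₀ y z).1 z.2
  set ρ : (A₀ : Type _)[X] →+* S18.polyRing A₀ y := RingHom.codRestrict
    ((Polynomial.aeval y : K₀[X] →ₐ[K₀] F).toRingHom.comp (Polynomial.mapRingHom A₀.subtype))
    (S18.polyRing A₀ y) (fun P => ⟨P, rfl⟩) with hρ
  have hρs : Function.Surjective ρ := by
    rintro ⟨r, P, hP⟩
    exact ⟨P, Subtype.ext hP⟩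
  have hl : q ∈ lifts ρ := by
    rw [lifts_iff_coeff_lifts]
    intro n
    exact hρs _
  obtain ⟨Q, hQ, -, hQm⟩ := lifts_and_natDegree_eq_and_monic hl hqm
  refine ⟨Q, hQm, ?_⟩
  apply Subtype.ext
  have h1 : ((eval₂ (chartEval A₀ y) z Q : S18.chart A₀ y) : F) =
      eval₂ ((S18.chart A₀ y).subtype.comp (chartEval A₀ y)) (z : F) Q :=
    Polynomial.hom_eval₂ Q (chartEval A₀ y) (S18.chart A₀ y).subtype z
  rw [h1]
  have h2 : (S18.chart A₀ y).subtype.comp (chartEval A₀ y) =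
      (algebraMap (S18.polyRing A₀ y) F).comp ρ := rfl
  rw [h2, ← eval₂_map, hQ]
  exact hq

/-- The hypothesis `hfin` of `regAt_transfer`. -/
theorem chart_hfin (A₀ : ValuationSubring K₀) (ϖ₀ : K₀) (h₀ : S18.IsUnif A₀ ϖ₀) (y : F)
    (ϖB : S18.chart A₀.toSubring y) (hϖB : (ϖB : F) = algebraMap K₀ F ϖ₀)
    (𝔫 : Ideal (S18.chart A₀.toSubring y)) (h𝔫 : 𝔫.IsMaximal) (hϖ : ϖB ∈ 𝔫)
    (z : S18.chart A₀.toSubring y) : ∃ p : Polynomial K₀, p.Monic ∧
      (∀ i, p.coeff i ∈ A₀) ∧ ∃ w ∈ 𝔫, (w : F) = Polynomial.aeval (z : F) p := by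
  let _ : Field (S18.chart A₀.toSubring y ⧸ 𝔫) := Ideal.Quotient.field 𝔫
  set θ := chartEval A₀.toSubring y with hθ
  set ι : A₀ →+* S18.chart A₀.toSubring y := θ.comp C with hι
  set φ : A₀ →+* S18.chart A₀.toSubring y ⧸ 𝔫 := (Ideal.Quotient.mk 𝔫).comp ι with hφ
  have hker : ∀ a ∈ maximalIdeal A₀, φ a = 0 := by
    intro a ha
    rcases eq_or_ne a 0 with rfl | h0
    · exact map_zero φ
    have h0' : (a : K₀) ≠ 0 := fun h => h0 (Subtype.ext h)
    have ha' : (a : K₀)⁻¹ ∉ A₀ := fun hinv => (mem_maximalIdeal a).1 ha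
      (IsUnit.of_mul_eq_one (⟨(a : K₀)⁻¹, hinv⟩ : A₀) (Subtype.ext (mul_inv_cancel₀ h0')))
    have hd := h₀.div_mem a.2 ha'
    have e : ι a = ϖB * ι ⟨(a : K₀) / ϖ₀, hd⟩ := by
      apply Subtype.ext
      show ((θ (C a) : S18.chart A₀.toSubring y) : F) =
        (ϖB : F) * ((θ (C ⟨(a : K₀) / ϖ₀, hd⟩) : S18.chart A₀.toSubring y) : F)
      rw [hϖB, coe_chartEval_C, coe_chartEval_C, ← map_mul]
      congr 1
      show (a : K₀) = ϖ₀ * ((a : K₀) / ϖ₀)
      rw [mul_div_cancel₀ _ h₀.ne_zero]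
    show Ideal.Quotient.mk 𝔫 (ι a) = 0
    rw [Ideal.Quotient.eq_zero_iff_mem, e]
    exact 𝔫.mul_mem_right _ hϖ
  have hψ : eval₂RingHom φ (Ideal.Quotient.mk 𝔫 (θ Polynomial.X)) = (Ideal.Quotient.mk 𝔫).comp θ := by
    apply Polynomial.ringHom_ext
    · intro a
      simp [hφ, hι]
    · simp
  have hint : (eval₂RingHom φ (Ideal.Quotient.mk 𝔫 (θ Polynomial.X))).IsIntegral := by
    rw [hψ]
    exact RingHom.IsIntegral.trans _ _ (chartEval_isIntegral A₀.toSubring y)
      (RingHom.isIntegral_of_surjective _ Ideal.Quotient.mk_surjective)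
  obtain ⟨p, hpm, hp⟩ := isIntegral_of_eval₂_isIntegral (maximalIdeal A₀) φ hker _ hint
    (Ideal.Quotient.mk 𝔫 z)
  refine ⟨p.map A₀.subtype, hpm.map _, fun i => ?_, eval₂ ι z p, ?_, ?_⟩
  · rw [coeff_map]
    exact (p.coeff i).2
  · rw [← Ideal.Quotient.eq_zero_iff_mem, Polynomial.hom_eval₂]
    exact hp
  · have h1 : ((eval₂ ι z p : S18.chart A₀.toSubring y) : F) =
        eval₂ ((S18.chart A₀.toSubring y).subtype.comp ι) (z : F) p :=
      Polynomial.hom_eval₂ p ι (S18.chart A₀.toSubring y).subtype z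
    rw [h1, aeval_def, eval₂_map]
    congr 1
    ext a
    exact coe_chartEval_C A₀.toSubring y a

end Chart

end Fermat.Agent.S37.RegJ

end
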